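import Fermat.Agent.S56.GW.EC.H2Low.Bridge.Onto
import Fermat.Agent.S56.GW.EC.H2Low.Cnt.Main
import Fermat.Agent.S56.GW.EC.Base.Les

/-!
# S56 / [GW-EC] / [EC-H2LOW]: the bridge to the seam (LOW) of [EC-BASE] (prefix `s56e2b_`)

`s56e2b_main : s56e2b_FinMu_stmt → s56e2b_Main_stmt → s56eb_Low_stmt`, where

* `s56e2b_Main_stmt` (`Bridge/Onto.lean`) is the output of the global assembly of [EC-H2LOW];
* `s56e2b_FinMu_stmt` is the finiteness of `H²(G_S, T_μ)` (a consequence of `s56eg_Fin_stmt`);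
  it gives the finiteness of `H²(G_S, T_E)[p]` through the Kummer sequence (`s56e2b_finite_tors`).

The counting step is `s56e2c_main : s56e2_Count_stmt`.
-/

set_option autoImplicit false
set_option linter.unusedSectionVars false

open ExtCitation

namespace Fermat.Agent.S56

open Fermat.Agent.S55

local notation "GQ" => (AlgebraicClosure ℚ ≃ₐ[ℚ] AlgebraicClosure ℚ)
local notation "Qbar" => AlgebraicClosure ℚ

noncomputable section

/-- **Finiteness of `H²(G_S, T_μ)`** (to be fed from `s56eg_Fin_stmt`). -/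
def s56e2b_FinMu_stmt : Prop :=
  ∀ (p : ℕ) [Fact p.Prime], p ≠ 2 → ∀ (S : Finset Nat.Primes), pPrime p ∈ S →
  ∀ (Δ : Type) [Group Δ] [Finite Δ] (π : GQ →* Δ) (χ : Δ →* (ZMod p)ˣ), s56eg_IsLev p S π χ →
    Finite (lvH2 (tl_levelsS S) (s56eb_T p π χ))

section Fin

variable {p : ℕ} [Fact p.Prime] {S : Finset Nat.Primes} {Δ : Type} [Group Δ] [Finite Δ]
  {π : GQ →* Δ} {χ : Δ →* (ZMod p)ˣ}

/-- `H²(G_S, T_E)[p]` is finite when `H²(G_S, T_μ)` is. -/
theorem s56e2b_finite_tors (hpS : pPrime p ∈ S) (hχ : ∀ g, χ (π g) = cycloChar p g)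
    (hπ : ∃ U ∈ (tl_levelsS S).levels, U ≤ π.ker)
    (hfin : Finite (lvH2 (tl_levelsS S) (s56eb_T p π χ))) :
    Finite {y : lvH2 (tl_levelsS S) (s56eb_TE S π) // p • y = 0} := by
  have hp : p.Prime := Fact.out
  haveI : NeZero p := ⟨hp.ne_zero⟩
  obtain ⟨ζ, hζ⟩ := HasEnoughRootsOfUnity.exists_primitiveRoot Qbar p
  set E := s56eb_kumSES S hpS hζ π χ hχ with hE
  have hsm := s56eb_TE_smooth S π hπ
  have hmπ : ∀ z : lvH2 (tl_levelsS S) (s56eb_TE S π),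
      (E.mπ (tl_levelsS S)).H2 z = p • z := fun z =>
    s56eb_H2_nsmul_of_coef (tl_levelsS S) p (E.mπ (tl_levelsS S)) rfl (fun _ => rfl) z
  have hmem : ∀ x : lvH2 (tl_levelsS S) (s56eb_T p π χ),
      p • (E.mi (tl_levelsS S)).H2 x = 0 := fun x => by
    rw [← hmπ]
    exact (E.exact_H2B (tl_levelsS S) hsm _).2 ⟨x, rfl⟩
  let f : lvH2 (tl_levelsS S) (s56eb_T p π χ) →
      {y : lvH2 (tl_levelsS S) (s56eb_TE S π) // p • y = 0} :=
    fun x => ⟨(E.mi (tl_levelsS S)).H2 x, hmem x⟩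
  refine Finite.of_surjective f ?_
  rintro ⟨y, hy⟩
  rw [← hmπ] at hy
  obtain ⟨x, hx⟩ := (E.exact_H2B (tl_levelsS S) hsm y).1 hy
  exact ⟨x, Subtype.ext hx⟩

end Fin

attribute [local instance] s56eb_actH0 s56eb_actH1 s56eb_actH2

/-- **The seam (LOW) of [EC-BASE]** from the global assembly of [EC-H2LOW]. -/
theorem s56e2b_main (hFin : s56e2b_FinMu_stmt) (hMain : s56e2b_Main_stmt) : s56eb_Low_stmt := by
  intro p _ hp2 S hpS Δ _ _ π χ hLev B hpB X _ _ _ hX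
  obtain ⟨K₁, r, hr, hrs⟩ := s56e2b_exists_lev hLev
  haveI : Fintype (s56eb_YT S π) := Fintype.ofFinite _
  have hπ : ∃ U ∈ (tl_levelsS S).levels, U ≤ π.ker := by
    refine ⟨K₁.L.fixingSubgroup, K₁.fixingSubgroup_mem_levels, fun σ hσ => ?_⟩
    rw [MonoidHom.mem_ker, ← hr, (K₁.q_eq_one_iff σ).2 hσ, map_one]
  have hfin : Finite {y : lvH2 (tl_levelsS S) (s56eb_TE S π) // p • y = 0} :=
    s56e2b_finite_tors hpS hLev.cyc hπ (hFin p hp2 S hpS Δ π χ hLev)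
  exact s56e2c_main p hpB X hX (lvH2 (tl_levelsS S) (s56eb_TE S π)) hfin (s56eb_YT S π)
    (s56eb_Fp p (s56eb_YT S π)) (AddEquiv.refl _) (fun _ _ _ => rfl)
    (s56eb_F1 p) s56eb_F1.equiv (fun _ _ => rfl)
    (s56e2b_Lam S π) (fun y y' hy hy' => s56e2b_Lam_add y y' hy hy')
    (fun b y _ v => s56e2b_Lam_smul B b y v)
    (fun a ha => s56e2b_onto π K₁ r hMain hp2 hpS hr hrs a ha)

end

end Fermat.Agent.S56
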