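import Fermat.Agent.S56.GW.EC.Base.Seams
import Fermat.Agent.S56.GW.Dual.Inv.Main
import Fermat.Agent.S56.GW.Dual.D6.Chain

/-!
# S56 / [GW-EC] / [EC-H2LOW], bridge to `s56eb_Low_stmt`: the invariant map `Λ`
(prefix `s56e2b_`)

`π : G_ℚ →* Δ`, `T_E = Fun(Δ, E_S)`.  For `q ∈ S` and a coset `v ∈ Δ ⧸ D̄_q`:

* `s56e2b_tau S π q v : T_E →+ (ℚ̄_q)ˣ`, `φ ↦ ∑_{δ, δ⁻¹ D̄_q = v} loc_q (φ δ)`, equivariant over
  `primeLocalToGlobal q`; `s56e2b_M S π q v` the corresponding morphism of level systems;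
* `s56e2b_theta p : ZMod p →+ ℚ/ℤ`, `a ↦ a / p`, injective with image the `p`-torsion;
* `s56e2b_Lam S π y (q, v) = θ⁻¹ (inv_q ((τ_{q,v})_* y))`; on `p`-torsion classes it is additive
  (`s56e2b_Lam_add`) and satisfies `Λ (b • y) v = Λ y (b⁻¹ • v)` for the right translation action
  of `Δ` on `T_E` (`s56e2b_Lam_smul`).
-/

set_option autoImplicit false
set_option linter.unusedSectionVars false

open ExtCitation

namespace Fermat.Agent.S56

open Fermat.Agent.S55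

local notation "GQ" => (AlgebraicClosure ℚ ≃ₐ[ℚ] AlgebraicClosure ℚ)

noncomputable section

/-! ### `θ : ZMod p → ℚ/ℤ` -/

section Theta

variable (p : ℕ) [Fact p.Prime]

/-- `a ↦ a / p`. -/
def s56e2b_theta : ZMod p →+ tt_QZ :=
  ZMod.lift p ⟨td_divHom p, (td_divHom_eq_zero_iff (Nat.Prime.pos Fact.out) _).2 dvd_rfl⟩

theorem s56e2b_theta_intCast (a : ℤ) : s56e2b_theta p (a : ZMod p) = td_divHom p a :=
  ZMod.lift_coe p _ a

theorem s56e2b_theta_injective : Function.Injective (s56e2b_theta p) := by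
  unfold s56e2b_theta
  rw [ZMod.lift_injective]
  intro a ha
  rw [ZMod.intCast_zmod_eq_zero_iff_dvd]
  exact (td_divHom_eq_zero_iff (Nat.Prime.pos Fact.out) a).1 ha

theorem s56e2b_nsmul_theta (a : ZMod p) : p • s56e2b_theta p a = 0 := by
  rw [← map_nsmul]
  have : p • a = 0 := by
    rw [nsmul_eq_mul, ZMod.natCast_self, zero_mul]
  rw [this, map_zero]

theorem s56e2b_theta_surj (x : tt_QZ) (hx : p • x = 0) : ∃ a : ZMod p, s56e2b_theta p a = x := by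
  obtain ⟨a, rfl⟩ := td_exists_int_of_nsmul_eq_zero (Nat.Prime.pos Fact.out) x hx
  exact ⟨(a : ZMod p), by rw [s56e2b_theta_intCast, td_divHom_apply]⟩

/-- The inverse of `θ` (junk outside the `p`-torsion). -/
def s56e2b_thetaInv (x : tt_QZ) : ZMod p := Function.invFun (s56e2b_theta p) x

theorem s56e2b_theta_thetaInv (x : tt_QZ) (hx : p • x = 0) :
    s56e2b_theta p (s56e2b_thetaInv p x) = x :=
  Function.invFun_eq (s56e2b_theta_surj p x hx)

theorem s56e2b_thetaInv_theta (a : ZMod p) : s56e2b_thetaInv p (s56e2b_theta p a) = a :=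
  Function.leftInverse_invFun (s56e2b_theta_injective p) a

end Theta

/-! ### The maps `τ_{q,v}` -/

section Tau

variable (S : Finset Nat.Primes) {Δ : Type} [Group Δ] [Finite Δ] (π : GQ →* Δ)

/-- The image of the decomposition group at `q` in `Δ`. -/
abbrev s56e2b_D (q : Nat.Primes) : Subgroup Δ := (π.comp (primeLocalToGlobal q)).range

/-- Evaluation at `δ`. -/
def s56e2b_evalE (δ : Δ) : s56eb_TE S π →+ dm_ES S where
  toFun φ := φ δ
  map_zero' := rfl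
  map_add' _ _ := rfl

open Classical in
/-- `τ_{q,v} : φ ↦ ∑_{δ⁻¹ D̄_q = v} loc_q (φ δ)`. -/
def s56e2b_tau (q : Nat.Primes) (v : Δ ⧸ s56e2b_D π q) : s56eb_TE S π →+ tl_locUnits q :=
  haveI := Fintype.ofFinite Δ
  ∑ δ ∈ Finset.univ.filter (fun δ : Δ => (QuotientGroup.mk δ⁻¹ : Δ ⧸ s56e2b_D π q) = v),
    (dm_ESloc S q).comp (s56e2b_evalE S π δ)

open Classical in
theorem s56e2b_tau_apply [Fintype Δ] (q : Nat.Primes) (v : Δ ⧸ s56e2b_D π q) (φ : s56eb_TE S π) :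
    s56e2b_tau S π q v φ =
      ∑ δ ∈ Finset.univ.filter (fun δ : Δ => (QuotientGroup.mk δ⁻¹ : Δ ⧸ s56e2b_D π q) = v),
        dm_ESloc S q (φ δ) := by
  unfold s56e2b_tau
  rw [AddMonoidHom.finset_sum_apply]
  have : (Fintype.ofFinite Δ) = ‹Fintype Δ› := Subsingleton.elim _ _
  subst this
  rfl

/-- `τ_{q,v}` is equivariant over `primeLocalToGlobal q`. -/
theorem s56e2b_tau_smul (q : Nat.Primes) (v : Δ ⧸ s56e2b_D π q) (g : primeLocalGaloisGroup q)
    (φ : s56eb_TE S π) :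
    s56e2b_tau S π q v (primeLocalToGlobal q g • φ) = g • s56e2b_tau S π q v φ := by
  classical
  haveI := Fintype.ofFinite Δ
  rw [s56e2b_tau_apply, s56e2b_tau_apply, Finset.smul_sum]
  set d : Δ := π (primeLocalToGlobal q g) with hd
  have hdm : d ∈ s56e2b_D π q := ⟨g, rfl⟩
  refine Finset.sum_bij (fun δ _ => d⁻¹ * δ) ?_ ?_ ?_ ?_
  · intro δ hδ
    rw [Finset.mem_filter] at hδ ⊢
    refine ⟨Finset.mem_univ _, ?_⟩
    rw [mul_inv_rev, inv_inv, QuotientGroup.mk_mul_of_mem _ hdm]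
    exact hδ.2
  · intro δ _ δ' _ h
    exact mul_left_cancel h
  · intro δ' hδ'
    rw [Finset.mem_filter] at hδ'
    refine ⟨d * δ', ?_, by rw [inv_mul_cancel_left]⟩
    rw [Finset.mem_filter]
    refine ⟨Finset.mem_univ _, ?_⟩
    rw [mul_inv_rev, QuotientGroup.mk_mul_of_mem _ (inv_mem hdm)]
    exact hδ'.2
  · intro δ _
    rw [s56eb_TF.smulG_apply, dm_ESloc_smul]

/-- The morphism of level systems `(G_ℚ, T_E) → (G_q, (ℚ̄_q)ˣ)` attached to `τ_{q,v}`. -/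
def s56e2b_M (q : Nat.Primes) (v : Δ ⧸ s56e2b_D π q) :
    LvMor (tl_levelsS S) (s56eb_TE S π) (tl_levelsLoc q) (tl_locUnits q) where
  f := primeLocalToGlobal q
  φ := s56e2b_tau S π q v
  equivariant := fun g φ => s56e2b_tau_smul S π q v g φ
  levels := fun U hU =>
    ⟨U.comap (primeLocalToGlobal q), ⟨U, tl_levelsS_le_levelsAll hU, rfl⟩, le_rfl⟩

/-- `τ_{q,v} (δ₀ • φ) = τ_{q, δ₀⁻¹ • v} φ` for the right translation action of `Δ`. -/
theorem s56e2b_tau_smulΔ (q : Nat.Primes) (v : Δ ⧸ s56e2b_D π q) (δ₀ : Δ) (φ : s56eb_TE S π) :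
    s56e2b_tau S π q v (δ₀ • φ) = s56e2b_tau S π q (δ₀⁻¹ • v) φ := by
  classical
  haveI := Fintype.ofFinite Δ
  rw [s56e2b_tau_apply, s56e2b_tau_apply]
  refine Finset.sum_bij (fun δ _ => δ * δ₀) ?_ ?_ ?_ ?_
  · intro δ hδ
    rw [Finset.mem_filter] at hδ ⊢
    refine ⟨Finset.mem_univ _, ?_⟩
    rw [← hδ.2, mul_inv_rev]
    rfl
  · intro δ _ δ' _ h
    exact mul_right_cancel h
  · intro δ' hδ'
    rw [Finset.mem_filter] at hδ'
    refine ⟨δ' * δ₀⁻¹, ?_, by rw [inv_mul_cancel_right]⟩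
    rw [Finset.mem_filter]
    refine ⟨Finset.mem_univ _, ?_⟩
    rw [mul_inv_rev, inv_inv]
    have h1 : (QuotientGroup.mk (δ₀ * δ'⁻¹) : Δ ⧸ s56e2b_D π q) =
        δ₀ • (QuotientGroup.mk δ'⁻¹ : Δ ⧸ s56e2b_D π q) := rfl
    rw [h1, hδ'.2, smul_inv_smul]
  · intro δ _
    rfl

end Tau

/-! ### The invariant map `Λ` -/

section Lam

variable {p : ℕ} [Fact p.Prime] (S : Finset Nat.Primes) {Δ : Type} [Group Δ] [Finite Δ]
  (π : GQ →* Δ)

/-- **The invariant map** `Λ : H²(G_S, T_E) → F_p[S_f(K)]`. -/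
def s56e2b_Lam (y : lvH2 (tl_levelsS S) (s56eb_TE S π)) : s56eb_YT S π → ZMod p :=
  fun w => s56e2b_thetaInv p (s56gdi_inv p w.1.1 ((s56e2b_M S π w.1.1 w.2).H2 y))

variable {S π}

theorem s56e2b_isPPrimary_of_tors {A : Type*} [AddCommGroup A] {a : A} (h : p • a = 0) :
    tt_IsPPrimary p a := ⟨1, by rw [pow_one]; exact h⟩

/-- The defining property of `Λ` on `p`-torsion classes. -/
theorem s56e2b_theta_Lam (y : lvH2 (tl_levelsS S) (s56eb_TE S π)) (hy : p • y = 0)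
    (w : s56eb_YT S π) :
    s56e2b_theta p (s56e2b_Lam S π y w) =
      s56gdi_inv p w.1.1 ((s56e2b_M S π w.1.1 w.2).H2 y) := by
  refine s56e2b_theta_thetaInv p _ ?_
  have h1 : p • (s56e2b_M S π w.1.1 w.2).H2 y = 0 := by rw [← map_nsmul, hy, map_zero]
  rw [← s56gdi_inv_nsmul p w.1.1 p _ (s56e2b_isPPrimary_of_tors h1), h1, s56gdi_inv_zero]

/-- `Λ` is additive on `p`-torsion classes. -/
theorem s56e2b_Lam_add (y y' : lvH2 (tl_levelsS S) (s56eb_TE S π)) (hy : p • y = 0)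
    (hy' : p • y' = 0) : (s56e2b_Lam S π (y + y') : s56eb_YT S π → ZMod p) =
      s56e2b_Lam S π y + s56e2b_Lam S π y' := by
  funext w
  apply s56e2b_theta_injective p
  have hyy : p • (y + y') = 0 := by rw [nsmul_add, hy, hy', add_zero]
  rw [Pi.add_apply, map_add, s56e2b_theta_Lam y hy, s56e2b_theta_Lam y' hy',
    s56e2b_theta_Lam (y + y') hyy, map_add]
  refine s56gdi_inv_add p w.1.1 _ _ (s56e2b_isPPrimary_of_tors ?_) (s56e2b_isPPrimary_of_tors ?_)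
  · rw [← map_nsmul, hy, map_zero]
  · rw [← map_nsmul, hy', map_zero]

attribute [local instance] s56eb_actH0 s56eb_actH1 s56eb_actH2

/-- `Λ (b • y) v = Λ y (b⁻¹ • v)`. -/
theorem s56e2b_Lam_smul (B : Subgroup Δ) (b : B) (y : lvH2 (tl_levelsS S) (s56eb_TE S π))
    (w : s56eb_YT S π) :
    (s56e2b_Lam S π (b • y) : s56eb_YT S π → ZMod p) w = s56e2b_Lam S π y (b⁻¹ • w) := by
  obtain ⟨q, v⟩ := w
  show s56e2b_thetaInv p (s56gdi_inv p q.1 ((s56e2b_M S π q.1 v).H2 (b • y))) =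
    s56e2b_thetaInv p (s56gdi_inv p q.1 ((s56e2b_M S π q.1 (b⁻¹ • v)).H2 y))
  congr 2
  have h0 : b • y = (s56eb_coef (tl_levelsS S) (s56eb_TE S π) b).H2 y := rfl
  have h1 := LvMor.H2_comp (s56e2b_M S π q.1 v) (s56eb_coef (tl_levelsS S) (s56eb_TE S π) b) y
  rw [h0, ← h1]
  refine s56gdc_H2_congr
    ((s56e2b_M S π q.1 v).comp (s56eb_coef (tl_levelsS S) (s56eb_TE S π) b))
    (s56e2b_M S π q.1 (b⁻¹ • v)) (fun _ => rfl) (fun φ => ?_) y
  show s56e2b_tau S π q.1 v ((b : Δ) • φ) = s56e2b_tau S π q.1 (b⁻¹ • v) φ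
  rw [s56e2b_tau_smulΔ]
  rfl

end Lam

end

end Fermat.Agent.S56
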