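import Fermat.Agent.S56.GW.EC.H2Low.Bridge.Trace
import Fermat.Agent.S55.Dual.Levels
import Fermat.Agent.S55.KernelField

/-!
# S56 / [GW-EC] / [EC-H2LOW], bridge to `s56eb_Low_stmt`: surjectivity of `Λ` onto the sum-zero
hyperplane (prefix `s56e2b_`)

* `s56e2b_Main_stmt`: the output of the global assembly of [EC-H2LOW] (classes of
  `H²(G_S, Hom(F, E_S))[p]` with prescribed local invariants), as a `Prop`;
* `s56e2b_exists_lev`: a level `K₁ : du_Lev S` above the field of `π`, with `r : Γ_{K₁} ↠ Δ`;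
* `s56e2b_onto`: every `a : S_f(K) → F_p` of sum `0` is `Λ y` for a `p`-torsion class `y`.
-/

set_option autoImplicit false
set_option linter.unusedSectionVars false

open ExtCitation

namespace Fermat.Agent.S56

open Fermat.Agent.S55

local notation "GQ" => (AlgebraicClosure ℚ ≃ₐ[ℚ] AlgebraicClosure ℚ)

noncomputable section

/-- **The output of the global assembly of [EC-H2LOW]**: global `p`-torsion classes with
prescribed local invariants of sum zero. -/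
def s56e2b_Main_stmt : Prop :=
  ∀ {p : ℕ} [Fact p.Prime], p ≠ 2 → ∀ (S : Finset Nat.Primes), pPrime p ∈ S →
  ∀ (K0 : du_Lev S) (A : Rep.{0} ℤ K0.Γ) [Finite A.V]
    (t : ∀ _ : ↥S, (la_F A).V →+ tt_QZ), (∀ q f, p • t q f = 0) →
    (∀ f, (∀ δ, (la_F A).ρ δ f = f) → ∑ q, t q f = 0) →
    ∃ y : lvH2 (tl_levelsS S) (dm_T S K0.q (la_F A)), p • y = 0 ∧
      ∀ (q : ↥S) (f : (la_F A).V) (hf : ∀ τ : primeLocalGaloisGroup q.1,
          (la_F A).ρ (K0.q (primeLocalToGlobal q.1 τ)) f = f),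
        s56gdi_inv p q.1 ((s56e2b_EV K0.q q.1 (la_F A) f hf).H2
          ((dm_locT S K0.q q.1 (la_F A)).H2 y)) = t q f

/-! ### A level above the field of `π` -/

section Lev

variable {p : ℕ} [Fact p.Prime] {S : Finset Nat.Primes} {Δ : Type} [Group Δ] [Finite Δ]
  {π : GQ →* Δ} {χ : Δ →* (ZMod p)ˣ}

theorem s56e2b_exists_lev (hπ : s56eg_IsLev p S π χ) :
    ∃ (K₁ : du_Lev S) (r : K₁.Γ →* Δ), (∀ σ : GQ, r (K₁.q σ) = π σ) ∧ Function.Surjective r := by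
  obtain ⟨F, hFfin, hF⟩ := hπ.smooth
  have hopen : IsOpen ((π.ker : Subgroup GQ) : Set GQ) := by
    have := hFfin
    exact Subgroup.isOpen_mono (fun s hs => MonoidHom.mem_ker.2 (hF s hs))
      (IntermediateField.fixingSubgroup_isOpen F)
  set K : IntermediateField ℚ (AlgebraicClosure ℚ) := IntermediateField.fixedField π.ker with hK
  have hfix : K.fixingSubgroup = π.ker := tl_fixingSubgroup_fixedField_of_isOpen _ hopen
  have hKunr : K.IsUnramifiedOutside S := by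
    refine ⟨tl_finiteDimensional_fixedField _ hopen, fun q hq A hA g hg => ?_⟩
    rw [hfix]
    exact MonoidHom.mem_ker.2 (hπ.unr q hq A hA g hg)
  obtain ⟨K₁, hK₁⟩ := du_Lev.exists_ge_field (S := S) K hKunr
  have hker : K₁.q.ker ≤ π.ker := by
    rw [du_Lev.ker_q, ← hfix]
    exact IntermediateField.fixingSubgroup_antitone hK₁
  have hsurj := K₁.q_surjective
  let r : K₁.Γ →* Δ := K₁.q.liftOfRightInverse (Function.surjInv hsurj)
    (Function.rightInverse_surjInv hsurj) ⟨π, hker⟩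
  have hr : ∀ σ : GQ, r (K₁.q σ) = π σ := fun σ =>
    MonoidHom.liftOfRightInverse_comp_apply _ _ _ _ σ
  refine ⟨K₁, r, hr, fun δ => ?_⟩
  obtain ⟨σ, rfl⟩ := hπ.surj δ
  exact ⟨K₁.q σ, hr σ⟩

end Lev

/-! ### Additive maps out of `F₁` -/

section Lift

variable {S : Finset Nat.Primes} (K₁ : du_Lev S) {W : Type*} [AddCommGroup W]

/-- The coefficient of `[γ]`. -/
def s56e2b_coeffAt (γ : K₁.Γ) : (s56e2b_F1 K₁).V →+ ℤ :=
  (Finsupp.applyAddHom (la_mk (A := s56e2b_A1 K₁) γ PUnit.unit)).comp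
    (MonoidAlgebra.coeffAddEquiv (R := ℤ) (M := la_X (s56e2b_A1 K₁))).toAddMonoidHom

theorem s56e2b_coeffAt_apply (γ : K₁.Γ) (f : (s56e2b_F1 K₁).V) :
    s56e2b_coeffAt K₁ γ f =
      (f : MonoidAlgebra ℤ (la_X (s56e2b_A1 K₁))).coeff
        (la_mk (A := s56e2b_A1 K₁) γ PUnit.unit) := rfl

open Classical in
theorem s56e2b_coeffAt_e (γ γ₀ : K₁.Γ) :
    s56e2b_coeffAt K₁ γ (s56e2b_e K₁ γ₀) = if γ₀ = γ then 1 else 0 := by
  rw [s56e2b_coeffAt_apply]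
  unfold s56e2b_e
  rw [MonoidAlgebra.coeff_single, Finsupp.single_apply]
  by_cases h : γ₀ = γ
  · subst h
    rw [if_pos rfl, if_pos rfl]
  · rw [if_neg h, if_neg]
    intro h'
    exact h (congrArg la_fst h')

/-- The coefficients of an invariant element are constant. -/
theorem s56e2b_coeffAt_inv (f : (s56e2b_F1 K₁).V) (hf : ∀ δ, (s56e2b_F1 K₁).ρ δ f = f)
    (γ : K₁.Γ) : s56e2b_coeffAt K₁ γ f = s56e2b_coeffAt K₁ 1 f := by
  have h1 := congrArg (s56e2b_coeffAt K₁ γ) (hf γ)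
  rw [← h1, s56e2b_coeffAt_apply, s56e2b_coeffAt_apply]
  have h2 := Representation.coeff_ofMulAction (k := ℤ) (G := K₁.Γ) (H := la_X (s56e2b_A1 K₁)) γ
    (f : MonoidAlgebra ℤ (la_X (s56e2b_A1 K₁))) (la_mk (A := s56e2b_A1 K₁) γ PUnit.unit)
  refine h2.trans ?_
  congr 1
  show la_mk (A := s56e2b_A1 K₁) (γ⁻¹ * γ) PUnit.unit = la_mk 1 PUnit.unit
  rw [inv_mul_cancel]

/-- The additive map `F₁ → W` with `[γ] ↦ c γ`. -/
def s56e2b_lift (c : K₁.Γ → W) : (s56e2b_F1 K₁).V →+ W :=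
  ∑ γ : K₁.Γ, (zmultiplesHom W (c γ)).comp (s56e2b_coeffAt K₁ γ)

theorem s56e2b_lift_apply (c : K₁.Γ → W) (f : (s56e2b_F1 K₁).V) :
    s56e2b_lift K₁ c f = ∑ γ : K₁.Γ, s56e2b_coeffAt K₁ γ f • c γ := by
  unfold s56e2b_lift
  rw [AddMonoidHom.finset_sum_apply]
  rfl

theorem s56e2b_lift_e (c : K₁.Γ → W) (γ₀ : K₁.Γ) : s56e2b_lift K₁ c (s56e2b_e K₁ γ₀) = c γ₀ := by
  classical
  rw [s56e2b_lift_apply, Finset.sum_eq_single γ₀]
  · rw [s56e2b_coeffAt_e, if_pos rfl, one_zsmul]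
  · intro γ _ hγ
    rw [s56e2b_coeffAt_e, if_neg (Ne.symm hγ), zero_zsmul]
  · intro h
    exact absurd (Finset.mem_univ γ₀) h

theorem s56e2b_lift_inv (c : K₁.Γ → W) (f : (s56e2b_F1 K₁).V)
    (hf : ∀ δ, (s56e2b_F1 K₁).ρ δ f = f) :
    s56e2b_lift K₁ c f = s56e2b_coeffAt K₁ 1 f • ∑ γ : K₁.Γ, c γ := by
  rw [s56e2b_lift_apply, Finset.smul_sum]
  refine Finset.sum_congr rfl fun γ _ => ?_
  rw [s56e2b_coeffAt_inv K₁ f hf γ]

end Lift

/-! ### Surjectivity -/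

section Onto

variable {p : ℕ} [Fact p.Prime] {S : Finset Nat.Primes} {Δ : Type} [Group Δ] [Finite Δ]
  (π : GQ →* Δ) (K₁ : du_Lev S) (r : K₁.Γ →* Δ)

/-- The place of the field of `π` below `γ`. -/
def s56e2b_vmap (q : Nat.Primes) (γ : K₁.Γ) : Δ ⧸ s56e2b_D π q :=
  (QuotientGroup.mk (r γ)⁻¹ : Δ ⧸ s56e2b_D π q)

variable {π K₁ r}

theorem s56e2b_vmap_surjective (hrs : Function.Surjective r) (q : Nat.Primes) :
    Function.Surjective (s56e2b_vmap π K₁ r q) := by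
  intro v
  obtain ⟨δ, rfl⟩ := QuotientGroup.mk_surjective v
  obtain ⟨γ, hγ⟩ := hrs δ⁻¹
  exact ⟨γ, by unfold s56e2b_vmap; rw [hγ, inv_inv]⟩

variable (π K₁ r)

/-- A chosen `γ` above `v`. -/
def s56e2b_rep (hrs : Function.Surjective r) (q : Nat.Primes) (v : Δ ⧸ s56e2b_D π q) : K₁.Γ :=
  (s56e2b_vmap_surjective hrs q v).choose

theorem s56e2b_vmap_rep (hrs : Function.Surjective r) (q : Nat.Primes)
    (v : Δ ⧸ s56e2b_D π q) : s56e2b_vmap π K₁ r q (s56e2b_rep π K₁ r hrs q v) = v :=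
  (s56e2b_vmap_surjective hrs q v).choose_spec

open Classical in
/-- The values of `t_q` on the basis. -/
def s56e2b_c (hrs : Function.Surjective r) (a : s56eb_YT S π → ZMod p) (q : ↥S) (γ : K₁.Γ) :
    tt_QZ :=
  if γ = s56e2b_rep π K₁ r hrs q.1 (s56e2b_vmap π K₁ r q.1 γ)
  then s56e2b_theta p (a ⟨q, s56e2b_vmap π K₁ r q.1 γ⟩) else 0

theorem s56e2b_sum_c_fibre (hrs : Function.Surjective r) (a : s56eb_YT S π → ZMod p) (q : ↥S)
    (v : Δ ⧸ s56e2b_D π q.1) [DecidablePred fun γ : K₁.Γ => s56e2b_vmap π K₁ r q.1 γ = v] :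
    ∑ γ ∈ Finset.univ.filter (fun γ : K₁.Γ => s56e2b_vmap π K₁ r q.1 γ = v),
      s56e2b_c π K₁ r hrs a q γ = s56e2b_theta p (a ⟨q, v⟩) := by
  classical
  have h1 : ∀ γ ∈ Finset.univ.filter (fun γ : K₁.Γ => s56e2b_vmap π K₁ r q.1 γ = v),
      s56e2b_c π K₁ r hrs a q γ =
        if γ = s56e2b_rep π K₁ r hrs q.1 v then s56e2b_theta p (a ⟨q, v⟩) else 0 := by
    intro γ hγ
    rw [Finset.mem_filter] at hγ
    unfold s56e2b_c
    rw [hγ.2]
  rw [Finset.sum_congr rfl h1, Finset.sum_ite_eq', if_pos]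
  rw [Finset.mem_filter]
  exact ⟨Finset.mem_univ _, s56e2b_vmap_rep π K₁ r hrs q.1 v⟩

theorem s56e2b_sum_c (hrs : Function.Surjective r) (a : s56eb_YT S π → ZMod p) (q : ↥S)
    [Fintype (Δ ⧸ s56e2b_D π q.1)] :
    ∑ γ : K₁.Γ, s56e2b_c π K₁ r hrs a q γ =
      ∑ v : Δ ⧸ s56e2b_D π q.1, s56e2b_theta p (a ⟨q, v⟩) := by
  classical
  rw [← Finset.sum_fiberwise (s := Finset.univ) (g := s56e2b_vmap π K₁ r q.1)
    (f := s56e2b_c π K₁ r hrs a q)]
  refine Finset.sum_congr rfl fun v _ => ?_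
  exact s56e2b_sum_c_fibre π K₁ r hrs a q v

/-- `t_q (f_{q,v}) = θ (a (q, v))`. -/
theorem s56e2b_lift_f (hrs : Function.Surjective r) (a : s56eb_YT S π → ZMod p) (q : ↥S)
    (v : Δ ⧸ s56e2b_D π q.1) :
    s56e2b_lift K₁ (s56e2b_c π K₁ r hrs a q) (s56e2b_f π K₁ r q.1 v) =
      s56e2b_theta p (a ⟨q, v⟩) := by
  classical
  unfold s56e2b_f
  rw [map_sum]
  refine (Finset.sum_congr rfl fun γ _ => s56e2b_lift_e K₁ _ γ).trans ?_
  exact s56e2b_sum_c_fibre π K₁ r hrs a q v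

/-- **Surjectivity of `Λ` onto the sum-zero hyperplane.** -/
theorem s56e2b_onto (hMain : s56e2b_Main_stmt) (hp2 : p ≠ 2) (hpS : pPrime p ∈ S)
    (hr : ∀ σ : GQ, r (K₁.q σ) = π σ) (hrs : Function.Surjective r)
    [Fintype (s56eb_YT S π)] (a : s56eb_YT S π → ZMod p) (ha : ∑ w, a w = 0) :
    ∃ y : lvH2 (tl_levelsS S) (s56eb_TE S π), p • y = 0 ∧
      (s56e2b_Lam S π y : s56eb_YT S π → ZMod p) = a := by
  classical
  have hsum : ∀ f, (∀ δ, (s56e2b_F1 K₁).ρ δ f = f) →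
      ∑ q : ↥S, s56e2b_lift K₁ (s56e2b_c π K₁ r hrs a q) f = 0 := by
    intro f hf
    haveI : ∀ q : ↥S, Fintype (Δ ⧸ s56e2b_D π q.1) := fun q => Fintype.ofFinite _
    have h1 : ∀ q : ↥S, s56e2b_lift K₁ (s56e2b_c π K₁ r hrs a q) f =
        s56e2b_coeffAt K₁ 1 f • ∑ v : Δ ⧸ s56e2b_D π q.1, s56e2b_theta p (a ⟨q, v⟩) := by
      intro q
      rw [s56e2b_lift_inv K₁ _ f hf, s56e2b_sum_c]
    rw [Finset.sum_congr rfl (fun q _ => h1 q), ← Finset.smul_sum]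
    have h2 : ∑ q : ↥S, ∑ v : Δ ⧸ s56e2b_D π q.1, s56e2b_theta p (a ⟨q, v⟩) =
        s56e2b_theta p (∑ w, a w) := by
      rw [map_sum]
      have h3 := Fintype.sum_sigma (ι := ↥S) (α := fun q : ↥S => Δ ⧸ s56e2b_D π q.1)
        (fun w => s56e2b_theta p (a w))
      rw [← h3]
      exact Finset.sum_congr (by ext; simp) (fun _ _ => rfl)
    rw [h2, ha, map_zero, smul_zero]
  obtain ⟨y₁, hy₁, hspec⟩ := hMain hp2 S hpS K₁ (s56e2b_A1 K₁)
    (fun q => s56e2b_lift K₁ (s56e2b_c π K₁ r hrs a q))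
    (fun q f => by
      rw [s56e2b_lift_apply, Finset.smul_sum]
      refine Finset.sum_eq_zero fun γ _ => ?_
      rw [smul_comm]
      unfold s56e2b_c
      split_ifs
      · rw [s56e2b_nsmul_theta, smul_zero]
      · rw [smul_zero, smul_zero])
    hsum
  refine ⟨(s56e2b_TR π K₁ r hr).H2 y₁, by rw [← map_nsmul, hy₁, map_zero], ?_⟩
  funext w
  obtain ⟨q, v⟩ := w
  show s56e2b_thetaInv p (s56gdi_inv p q.1 ((s56e2b_M S π q.1 v).H2
    ((s56e2b_TR π K₁ r hr).H2 y₁))) = a ⟨q, v⟩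
  rw [s56e2b_M_tr π K₁ r hr q.1 v y₁, hspec q (s56e2b_f π K₁ r q.1 v)
    (s56e2b_f_inv π K₁ r hr q.1 v), s56e2b_lift_f π K₁ r hrs a q v, s56e2b_thetaInv_theta]

end Onto

end

end Fermat.Agent.S56
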