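import Fermat.Agent.S56.GW.EC.H2Low.Bridge.Lam
import Fermat.Agent.S55.Dual.Modules
import Fermat.Agent.S55.Dual.Lattice
import Fermat.Agent.S55.Dual.Seam

/-!
# S56 / [GW-EC] / [EC-H2LOW], bridge to `s56eb_Low_stmt`: the trace (prefix `s56e2b_`)

`π : G_ℚ →* Δ`, `K₁ : du_Lev S`, `r : Γ_{K₁} →* Δ` with `r ∘ K₁.q = π`; `F₁ = ℤ[Γ_{K₁} × pt]`.

* `s56e2b_tr : Hom(F₁, E_S) →+ Fun(Δ, E_S)`, `ψ ↦ (δ ↦ ∑_{r γ = δ} ψ [γ])`, `G_ℚ`-equivariant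
  (`s56e2b_tr_smul`) — the corestriction from `K₁` to the field of `π` under Shapiro;
* `s56e2b_f q v = ∑_{(r γ)⁻¹ D̄_q = v} [γ] ∈ F₁`, invariant under the decomposition group at `q`
  (`s56e2b_f_inv`), with `τ_{q,v} (tr ψ) = loc_q (ψ (f_{q,v}))` (`s56e2b_tau_tr`);
* `s56e2b_EV`: evaluation at a `D_q`-invariant element, `Hom(Y, (ℚ̄_q)ˣ) → (ℚ̄_q)ˣ`;
* `s56e2b_M_tr`: `(τ_{q,v})_* ∘ tr_* = (ev_{f_{q,v}})_* ∘ loc_q` on `H²`.
-/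

set_option autoImplicit false
set_option linter.unusedSectionVars false

open ExtCitation

namespace Fermat.Agent.S56

open Fermat.Agent.S55

local notation "GQ" => (AlgebraicClosure ℚ ≃ₐ[ℚ] AlgebraicClosure ℚ)

noncomputable section

/-! ### Evaluation at an invariant element -/

section EV

variable {Δ₀ : Type} [Group Δ₀] (π₀ : GQ →* Δ₀) (q : Nat.Primes) (Y : Rep.{0} ℤ Δ₀)

/-- Evaluation at `f`, as an additive map `Hom(Y, (ℚ̄_q)ˣ) → (ℚ̄_q)ˣ`. -/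
def s56e2b_evAt (f : Y.V) : dm_Tl π₀ q Y →+ tl_locUnits q where
  toFun ψ := ψ (f : dm_Yl π₀ q Y)
  map_zero' := rfl
  map_add' _ _ := rfl

theorem s56e2b_evAt_apply (f : Y.V) (ψ : dm_Tl π₀ q Y) :
    s56e2b_evAt π₀ q Y f ψ = ψ (f : dm_Yl π₀ q Y) := rfl

/-- Evaluation at an element invariant under the decomposition group, as a morphism of level
cohomology. -/
def s56e2b_EV (f : Y.V)
    (hf : ∀ τ : primeLocalGaloisGroup q, Y.ρ (π₀ (primeLocalToGlobal q τ)) f = f) :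
    LvMor (tl_levelsLoc q) (dm_Tl π₀ q Y) (tl_levelsLoc q) (tl_locUnits q) :=
  LvMor.ofCoeff (tl_levelsLoc q) (s56e2b_evAt π₀ q Y f) (fun g ψ => by
    show (g • ψ) (f : dm_Yl π₀ q Y) = g • ψ (f : dm_Yl π₀ q Y)
    rw [LvHom.smul_apply]
    congr 2
    exact hf g⁻¹)

end EV

/-! ### The trace -/

section Trace

variable {S : Finset Nat.Primes} {Δ : Type} [Group Δ] [Finite Δ] (π : GQ →* Δ)
  (K₁ : du_Lev S) (r : K₁.Γ →* Δ) (hr : ∀ σ : GQ, r (K₁.q σ) = π σ)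

/-- The one-point coefficient module. -/
abbrev s56e2b_A1 : Rep.{0} ℤ K₁.Γ := Rep.trivial ℤ K₁.Γ PUnit

/-- The lattice `F₁ = ℤ[Γ × pt]`. -/
abbrev s56e2b_F1 : Rep.{0} ℤ K₁.Γ := la_F (s56e2b_A1 K₁)

/-- The basis element `[γ]`. -/
def s56e2b_e (γ : K₁.Γ) : (s56e2b_F1 K₁).V :=
  (MonoidAlgebra.single (la_mk (A := s56e2b_A1 K₁) γ PUnit.unit) (1 : ℤ) :
    MonoidAlgebra ℤ (la_X (s56e2b_A1 K₁)))

theorem s56e2b_rho_e (g γ : K₁.Γ) :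
    (s56e2b_F1 K₁).ρ g (s56e2b_e K₁ γ) = s56e2b_e K₁ (g * γ) :=
  Representation.ofMulAction_single g _ _

/-- The basis element as an element of the `G_ℚ`-module. -/
def s56e2b_eg (γ : K₁.Γ) : dm_Yg K₁.q (s56e2b_F1 K₁) := s56e2b_e K₁ γ

theorem s56e2b_smul_eg (g : GQ) (γ : K₁.Γ) :
    g • s56e2b_eg K₁ γ = s56e2b_eg K₁ (K₁.q g * γ) :=
  s56e2b_rho_e K₁ (K₁.q g) γ

open Classical in
/-- **The trace** `Hom(F₁, E_S) → Fun(Δ, E_S)`. -/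
def s56e2b_tr : dm_T S K₁.q (s56e2b_F1 K₁) →+ s56eb_TE S π where
  toFun ψ := s56eb_TF.mk fun δ =>
    ∑ γ ∈ Finset.univ.filter (fun γ : K₁.Γ => r γ = δ), ψ (s56e2b_eg K₁ γ)
  map_zero' := by
    ext δ
    show ∑ γ ∈ Finset.univ.filter (fun γ : K₁.Γ => r γ = δ), (0 : dm_ES S) = 0
    rw [Finset.sum_const_zero]
  map_add' ψ ψ' := by
    ext δ
    show ∑ γ ∈ Finset.univ.filter (fun γ : K₁.Γ => r γ = δ),
        (ψ (s56e2b_eg K₁ γ) + ψ' (s56e2b_eg K₁ γ)) = _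
    rw [Finset.sum_add_distrib]
    rfl

open Classical in
theorem s56e2b_tr_apply (ψ : dm_T S K₁.q (s56e2b_F1 K₁)) (δ : Δ) :
    s56e2b_tr π K₁ r ψ δ =
      ∑ γ ∈ Finset.univ.filter (fun γ : K₁.Γ => r γ = δ), ψ (s56e2b_eg K₁ γ) := rfl

include hr in
/-- The trace is `G_ℚ`-equivariant. -/
theorem s56e2b_tr_smul (g : GQ) (ψ : dm_T S K₁.q (s56e2b_F1 K₁)) :
    s56e2b_tr π K₁ r (g • ψ) = g • s56e2b_tr π K₁ r ψ := by
  classical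
  ext δ
  rw [s56eb_TF.smulG_apply, s56e2b_tr_apply, s56e2b_tr_apply, Finset.smul_sum]
  refine Finset.sum_bij (fun γ _ => (K₁.q g)⁻¹ * γ) ?_ ?_ ?_ ?_
  · intro γ hγ
    rw [Finset.mem_filter] at hγ ⊢
    refine ⟨Finset.mem_univ _, ?_⟩
    rw [map_mul, map_inv, hr, hγ.2]
  · intro γ _ γ' _ h
    exact mul_left_cancel h
  · intro γ' hγ'
    rw [Finset.mem_filter] at hγ'
    refine ⟨K₁.q g * γ', ?_, by rw [inv_mul_cancel_left]⟩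
    rw [Finset.mem_filter]
    refine ⟨Finset.mem_univ _, ?_⟩
    rw [map_mul, hr, hγ'.2, mul_inv_cancel_left]
  · intro γ _
    rw [LvHom.smul_apply, s56e2b_smul_eg, map_inv]

/-- The trace as a morphism of level cohomology. -/
def s56e2b_TR : LvMor (tl_levelsS S) (dm_T S K₁.q (s56e2b_F1 K₁)) (tl_levelsS S)
    (s56eb_TE S π) :=
  LvMor.ofCoeff (tl_levelsS S) (s56e2b_tr π K₁ r) (s56e2b_tr_smul π K₁ r hr)

open Classical in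
/-- The `D_q`-invariant element `f_{q,v} = ∑_{(r γ)⁻¹ D̄_q = v} [γ]`. -/
def s56e2b_f (q : Nat.Primes) (v : Δ ⧸ s56e2b_D π q) : (s56e2b_F1 K₁).V :=
  ∑ γ ∈ Finset.univ.filter
    (fun γ : K₁.Γ => (QuotientGroup.mk (r γ)⁻¹ : Δ ⧸ s56e2b_D π q) = v), s56e2b_e K₁ γ

include hr in
theorem s56e2b_f_inv (q : Nat.Primes) (v : Δ ⧸ s56e2b_D π q) (τ : primeLocalGaloisGroup q) :
    (s56e2b_F1 K₁).ρ (K₁.q (primeLocalToGlobal q τ)) (s56e2b_f π K₁ r q v) =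
      s56e2b_f π K₁ r q v := by
  classical
  unfold s56e2b_f
  rw [map_sum]
  set g₀ : K₁.Γ := K₁.q (primeLocalToGlobal q τ) with hg₀
  have hd : r g₀ ∈ s56e2b_D π q := ⟨τ, (hr _).symm⟩
  refine Finset.sum_bij (fun γ _ => g₀ * γ) ?_ ?_ ?_ ?_
  · intro γ hγ
    rw [Finset.mem_filter] at hγ ⊢
    refine ⟨Finset.mem_univ _, ?_⟩
    rw [map_mul, mul_inv_rev, QuotientGroup.mk_mul_of_mem _ (inv_mem hd)]
    exact hγ.2
  · intro γ _ γ' _ h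
    exact mul_left_cancel h
  · intro γ' hγ'
    rw [Finset.mem_filter] at hγ'
    refine ⟨g₀⁻¹ * γ', ?_, by rw [mul_inv_cancel_left]⟩
    rw [Finset.mem_filter]
    refine ⟨Finset.mem_univ _, ?_⟩
    rw [map_mul, mul_inv_rev, map_inv, inv_inv, QuotientGroup.mk_mul_of_mem _ hd]
    exact hγ'.2
  · intro γ _
    exact s56e2b_rho_e K₁ g₀ γ

/-- `τ_{q,v} (tr ψ) = loc_q (ψ (f_{q,v}))`. -/
theorem s56e2b_tau_tr (q : Nat.Primes) (v : Δ ⧸ s56e2b_D π q)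
    (ψ : dm_T S K₁.q (s56e2b_F1 K₁)) :
    s56e2b_tau S π q v (s56e2b_tr π K₁ r ψ) =
      dm_ESloc S q (ψ (s56e2b_f π K₁ r q v : dm_Yg K₁.q (s56e2b_F1 K₁))) := by
  classical
  haveI := Fintype.ofFinite Δ
  rw [s56e2b_tau_apply]
  have h1 : (ψ (s56e2b_f π K₁ r q v : dm_Yg K₁.q (s56e2b_F1 K₁))) =
      ∑ γ ∈ Finset.univ.filter
        (fun γ : K₁.Γ => (QuotientGroup.mk (r γ)⁻¹ : Δ ⧸ s56e2b_D π q) = v),
        ψ (s56e2b_eg K₁ γ) := by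
    unfold s56e2b_f
    exact map_sum ψ _ _
  rw [h1, map_sum]
  simp only [s56e2b_tr_apply, map_sum]
  rw [Finset.sum_comm' (t' := Finset.univ.filter
      (fun γ : K₁.Γ => (QuotientGroup.mk (r γ)⁻¹ : Δ ⧸ s56e2b_D π q) = v))
    (s' := fun γ => {r γ})]
  · refine Finset.sum_congr rfl fun γ _ => ?_
    rw [Finset.sum_singleton]
  · intro δ γ
    simp only [Finset.mem_filter, Finset.mem_univ, true_and, Finset.mem_singleton]
    constructor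
    · rintro ⟨h1, h2⟩
      exact ⟨h2.symm, by rw [h2]; exact h1⟩
    · rintro ⟨h1, h2⟩
      exact ⟨by rw [h1]; exact h2, h1.symm⟩

include hr in
/-- `(τ_{q,v})_* ∘ tr_* = (ev_{f_{q,v}})_* ∘ loc_q` on `H²`. -/
theorem s56e2b_M_tr (q : Nat.Primes) (v : Δ ⧸ s56e2b_D π q)
    (y : lvH2 (tl_levelsS S) (dm_T S K₁.q (s56e2b_F1 K₁))) :
    (s56e2b_M S π q v).H2 ((s56e2b_TR π K₁ r hr).H2 y) =
      (s56e2b_EV K₁.q q (s56e2b_F1 K₁) (s56e2b_f π K₁ r q v)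
        (s56e2b_f_inv π K₁ r hr q v)).H2 ((dm_locT S K₁.q q (s56e2b_F1 K₁)).H2 y) := by
  rw [← LvMor.H2_comp, ← LvMor.H2_comp]
  refine s56gdc_H2_congr
    ((s56e2b_M S π q v).comp (s56e2b_TR π K₁ r hr))
    ((s56e2b_EV K₁.q q (s56e2b_F1 K₁) (s56e2b_f π K₁ r q v)
        (s56e2b_f_inv π K₁ r hr q v)).comp (dm_locT S K₁.q q (s56e2b_F1 K₁)))
    (fun _ => rfl) (fun ψ => ?_) y
  exact s56e2b_tau_tr π K₁ r q v ψ

end Trace

end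

end Fermat.Agent.S56
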